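import Mathlib
import Fermat.Agent.S41.Spec.PD

/-!
# S41 / PD / TORS (helper768): elements of finite order of `SL(2, ℤ)`

Every element of finite order of `SL(2, ℤ)` is conjugate to one of
`± 1, ± S, ± S T, ± (S T)²`  (`torsion_class_h768`, Mathlib-only).

Proof.  (1) With `t = tr g` one has `g ^ (n+1) = a_{n+1} g - a_n`, where `a₀ = 0`, `a₁ = 1`,
`a_{n+2} = t a_{n+1} - a_n`; if `|t| ≥ 2` then `|a_n|` is strictly increasing, so `g ^ (n+1) = 1`
forces `g` to be scalar.  (2) If `|t| ≤ 1`, conjugation by `[[1,k],[0,1]]` makes `2 |a| ≤ |c|`, and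
either `|b| < |c|` (conjugate by `S`, induction on `|c|`) or `|c| = 1`, `a = 0`, and `g` is one of
six explicit matrices.
-/

set_option autoImplicit false

namespace Fermat.Agent.S41.H768

open Matrix Matrix.SpecialLinearGroup ModularGroup
open scoped MatrixGroups

/-! ## Explicit elements -/

/-- The element `[[a, b], [c, d]]` of `SL(2, ℤ)`. -/
def mk2 (a b c d : ℤ) (h : a * d - b * c = 1) : SL(2, ℤ) :=
  ⟨!![a, b; c, d], by rw [Matrix.det_fin_two_of]; exact h⟩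

@[simp] lemma mk2_00 (a b c d : ℤ) (h : a * d - b * c = 1) : (mk2 a b c d h) 0 0 = a := rfl
@[simp] lemma mk2_01 (a b c d : ℤ) (h : a * d - b * c = 1) : (mk2 a b c d h) 0 1 = b := rfl
@[simp] lemma mk2_10 (a b c d : ℤ) (h : a * d - b * c = 1) : (mk2 a b c d h) 1 0 = c := rfl
@[simp] lemma mk2_11 (a b c d : ℤ) (h : a * d - b * c = 1) : (mk2 a b c d h) 1 1 = d := rfl

lemma sl2_ext {g g' : SL(2, ℤ)} (h00 : g 0 0 = g' 0 0) (h01 : g 0 1 = g' 0 1)
    (h10 : g 1 0 = g' 1 0) (h11 : g 1 1 = g' 1 1) : g = g' := by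
  apply Matrix.SpecialLinearGroup.ext
  intro i j
  fin_cases i <;> fin_cases j
  · exact h00
  · exact h01
  · exact h10
  · exact h11

lemma mul_00 (g h : SL(2, ℤ)) : (g * h) 0 0 = g 0 0 * h 0 0 + g 0 1 * h 1 0 := by
  simp [Matrix.SpecialLinearGroup.coe_mul, Matrix.mul_apply, Fin.sum_univ_two]
lemma mul_01 (g h : SL(2, ℤ)) : (g * h) 0 1 = g 0 0 * h 0 1 + g 0 1 * h 1 1 := by
  simp [Matrix.SpecialLinearGroup.coe_mul, Matrix.mul_apply, Fin.sum_univ_two]
lemma mul_10 (g h : SL(2, ℤ)) : (g * h) 1 0 = g 1 0 * h 0 0 + g 1 1 * h 1 0 := by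
  simp [Matrix.SpecialLinearGroup.coe_mul, Matrix.mul_apply, Fin.sum_univ_two]
lemma mul_11 (g h : SL(2, ℤ)) : (g * h) 1 1 = g 1 0 * h 0 1 + g 1 1 * h 1 1 := by
  simp [Matrix.SpecialLinearGroup.coe_mul, Matrix.mul_apply, Fin.sum_univ_two]

lemma det_entries (g : SL(2, ℤ)) : g 0 0 * g 1 1 - g 0 1 * g 1 0 = 1 := by
  have := g.det_coe
  rwa [Matrix.det_fin_two] at this

lemma trace_entries (g : SL(2, ℤ)) : (g : Matrix (Fin 2) (Fin 2) ℤ).trace = g 0 0 + g 1 1 :=
  Matrix.trace_fin_two _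

lemma neg_entry (g : SL(2, ℤ)) (i j : Fin 2) : (-g) i j = - g i j := by
  simp [Matrix.SpecialLinearGroup.coe_neg]

lemma S_00 : (S : SL(2, ℤ)) 0 0 = 0 := by simp [coe_S]
lemma S_01 : (S : SL(2, ℤ)) 0 1 = -1 := by simp [coe_S]
lemma S_10 : (S : SL(2, ℤ)) 1 0 = 1 := by simp [coe_S]
lemma S_11 : (S : SL(2, ℤ)) 1 1 = 0 := by simp [coe_S]
lemma T_00 : (T : SL(2, ℤ)) 0 0 = 1 := by simp [coe_T]
lemma T_01 : (T : SL(2, ℤ)) 0 1 = 1 := by simp [coe_T]
lemma T_10 : (T : SL(2, ℤ)) 1 0 = 0 := by simp [coe_T]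
lemma T_11 : (T : SL(2, ℤ)) 1 1 = 1 := by simp [coe_T]

lemma conj_eq_of_mul_eq {g g' k : SL(2, ℤ)} (h : k * g = g' * k) : k * g * k⁻¹ = g' := by
  rw [h, mul_inv_cancel_right]

/-! ## Step 1: finite order forces `|tr| ≤ 1` or `g = ± 1` -/

/-- The sequence `a₀ = 0`, `a₁ = 1`, `a_{n+2} = t a_{n+1} - a_n`. -/
def cheb (t : ℤ) : ℕ → ℤ
  | 0 => 0
  | 1 => 1
  | (n + 2) => t * cheb t (n + 1) - cheb t n

lemma cheb_growth (t : ℤ) (ht : 2 ≤ |t|) (n : ℕ) : |cheb t n| + 1 ≤ |cheb t (n + 1)| := by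
  induction n with
  | zero => simp [cheb]
  | succ n ih =>
    have h1 : cheb t (n + 1 + 1) = t * cheb t (n + 1) - cheb t n := rfl
    rw [h1]
    have h2 : |t * cheb t (n + 1)| - |cheb t n| ≤ |t * cheb t (n + 1) - cheb t n| :=
      abs_sub_abs_le_abs_sub _ _
    rw [abs_mul] at h2
    have h3 : 2 * |cheb t (n + 1)| ≤ |t| * |cheb t (n + 1)| :=
      mul_le_mul_of_nonneg_right ht (abs_nonneg _)
    linarith

lemma cheb_ne_zero (t : ℤ) (ht : 2 ≤ |t|) (n : ℕ) : cheb t (n + 1) ≠ 0 := by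
  intro h
  have := cheb_growth t ht n
  rw [h, abs_zero] at this
  have := abs_nonneg (cheb t n)
  linarith

lemma sq_eq_h768 (M : Matrix (Fin 2) (Fin 2) ℤ) (h : M.det = 1) :
    M * M = M.trace • M - 1 := by
  rw [Matrix.det_fin_two] at h
  ext i j
  fin_cases i <;> fin_cases j
  · simp only [Matrix.mul_apply, Fin.sum_univ_two, Matrix.trace_fin_two, Matrix.sub_apply,
      Matrix.smul_apply, Matrix.one_apply, smul_eq_mul, Fin.zero_eta, Fin.isValue, if_true]
    linear_combination (-1 : ℤ) * h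
  · simp only [Matrix.mul_apply, Fin.sum_univ_two, Matrix.trace_fin_two, Matrix.sub_apply,
      Matrix.smul_apply, Matrix.one_apply, smul_eq_mul, Fin.zero_eta, Fin.mk_one, Fin.isValue]
    simp
    ring
  · simp only [Matrix.mul_apply, Fin.sum_univ_two, Matrix.trace_fin_two, Matrix.sub_apply,
      Matrix.smul_apply, Matrix.one_apply, smul_eq_mul, Fin.zero_eta, Fin.mk_one, Fin.isValue]
    simp
    ring
  · simp only [Matrix.mul_apply, Fin.sum_univ_two, Matrix.trace_fin_two, Matrix.sub_apply,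
      Matrix.smul_apply, Matrix.one_apply, smul_eq_mul, Fin.mk_one, Fin.isValue, if_true]
    linear_combination (-1 : ℤ) * h

lemma pow_succ_eq_h768 (M : Matrix (Fin 2) (Fin 2) ℤ) (h : M.det = 1) (n : ℕ) :
    M ^ (n + 1) = cheb M.trace (n + 1) • M - cheb M.trace n • (1 : Matrix (Fin 2) (Fin 2) ℤ) := by
  induction n with
  | zero => simp [cheb]
  | succ n ih =>
    have h1 : cheb M.trace (n + 1 + 1) = M.trace * cheb M.trace (n + 1) - cheb M.trace n := rfl
    rw [pow_succ, ih, h1, Matrix.sub_mul, Matrix.smul_mul, Matrix.smul_mul, Matrix.one_mul,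
      sq_eq_h768 M h]
    ext i j
    simp only [Matrix.sub_apply, Matrix.smul_apply, smul_eq_mul, Matrix.one_apply]
    ring

/-- An element of finite order of `SL(2, ℤ)` is `± 1` or has `|tr| ≤ 1`. -/
lemma trace_of_isOfFinOrder (g : SL(2, ℤ)) (hg : IsOfFinOrder g) :
    g = 1 ∨ g = -1 ∨ |(g : Matrix (Fin 2) (Fin 2) ℤ).trace| ≤ 1 := by
  by_cases ht : |(g : Matrix (Fin 2) (Fin 2) ℤ).trace| ≤ 1
  · exact Or.inr (Or.inr ht)
  have ht2 : 2 ≤ |(g : Matrix (Fin 2) (Fin 2) ℤ).trace| := by omega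
  obtain ⟨k, hk, hgk⟩ := isOfFinOrder_iff_pow_eq_one.1 hg
  obtain ⟨n, rfl⟩ : ∃ n, k = n + 1 := ⟨k - 1, by omega⟩
  have hM : (g : Matrix (Fin 2) (Fin 2) ℤ) ^ (n + 1) = 1 := by
    have := congrArg (fun x : SL(2, ℤ) => (x : Matrix (Fin 2) (Fin 2) ℤ)) hgk
    simpa using this
  rw [pow_succ_eq_h768 _ g.det_coe n] at hM
  set a := cheb (g : Matrix (Fin 2) (Fin 2) ℤ).trace (n + 1) with ha
  set a' := cheb (g : Matrix (Fin 2) (Fin 2) ℤ).trace n with ha'
  have hane : a ≠ 0 := cheb_ne_zero _ ht2 n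
  have e01 := congrFun (congrFun hM 0) 1
  have e10 := congrFun (congrFun hM 1) 0
  simp only [Matrix.sub_apply, Matrix.smul_apply, smul_eq_mul, Matrix.one_apply] at e01 e10
  have h01 : g 0 1 = 0 := by
    have : a * g 0 1 = 0 := by simpa using e01
    rcases mul_eq_zero.1 this with h | h
    · exact absurd h hane
    · exact h
  have h10 : g 1 0 = 0 := by
    have : a * g 1 0 = 0 := by simpa using e10
    rcases mul_eq_zero.1 this with h | h
    · exact absurd h hane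
    · exact h
  have hdet := det_entries g
  rw [h01, zero_mul, sub_zero] at hdet
  rcases Int.eq_one_or_neg_one_of_mul_eq_one' hdet with ⟨h0, h1⟩ | ⟨h0, h1⟩
  · left
    apply sl2_ext <;> simp [h0, h1, h01, h10]
  · right; left
    apply sl2_ext <;> simp [neg_entry, h0, h1, h01, h10]

/-! ## Step 2: reduction -/

/-- The conclusion of TORS. -/
def Good (g : SL(2, ℤ)) : Prop :=
  ∃ h : SL(2, ℤ), h * g * h⁻¹ = 1 ∨ h * g * h⁻¹ = -1 ∨ h * g * h⁻¹ = S ∨ h * g * h⁻¹ = -S ∨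
    h * g * h⁻¹ = S * T ∨ h * g * h⁻¹ = -(S * T) ∨ h * g * h⁻¹ = (S * T) ^ 2 ∨
    h * g * h⁻¹ = -(S * T) ^ 2

lemma Good.of_conj {g : SL(2, ℤ)} (k : SL(2, ℤ)) (h : Good (k * g * k⁻¹)) : Good g := by
  obtain ⟨h', hh'⟩ := h
  refine ⟨h' * k, ?_⟩
  have : h' * k * g * (h' * k)⁻¹ = h' * (k * g * k⁻¹) * h'⁻¹ := by group
  rw [this]
  exact hh'

lemma good_of_eq {g : SL(2, ℤ)}
    (h : g = 1 ∨ g = -1 ∨ g = S ∨ g = -S ∨ g = S * T ∨ g = -(S * T) ∨ g = (S * T) ^ 2 ∨
      g = -(S * T) ^ 2) : Good g :=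
  ⟨1, by simpa using h⟩

/-- Balanced remainder. -/
lemma exists_balanced (a c : ℤ) (hc : c ≠ 0) : ∃ k : ℤ, 2 * |a + k * c| ≤ |c| := by
  have hcpos : 0 < |c| := abs_pos.2 hc
  have h1 := Int.emod_nonneg a (abs_pos.2 hc).ne'
  have h2 := Int.emod_lt_of_pos a hcpos
  have h3 := Int.emod_add_mul_ediv a |c|
  -- a = a % |c| + |c| * (a / |c|)
  obtain ⟨s, hs⟩ : ∃ s : ℤ, |c| = s * c := by
    rcases abs_choice c with h | h
    · exact ⟨1, by rw [h]; ring⟩
    · exact ⟨-1, by rw [h]; ring⟩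
  by_cases hr : 2 * (a % |c|) ≤ |c|
  · refine ⟨-(a / |c|) * s, ?_⟩
    have : a + -(a / |c|) * s * c = a % |c| := by
      have : -(a / |c|) * s * c = -(|c| * (a / |c|)) := by rw [hs]; ring
      rw [this]; linarith
    rw [this, abs_of_nonneg h1]
    exact hr
  · refine ⟨(-(a / |c|) - 1) * s, ?_⟩
    have : a + (-(a / |c|) - 1) * s * c = a % |c| - |c| := by
      have : (-(a / |c|) - 1) * s * c = -(|c| * (a / |c|)) - |c| := by
        have h4 : (-(a / |c|) - 1) * s * c = (-(a / |c|) - 1) * (s * c) := by ring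
        rw [h4, ← hs]; ring
      rw [this]; linarith
    rw [this, abs_of_nonpos (by linarith)]
    linarith

/-- The six reduced matrices. -/
lemma good_reduced (g : SL(2, ℤ)) (ha : g 0 0 = 0)
    (hc : g 1 0 = 1 ∨ g 1 0 = -1) (ht : g 1 1 = 0 ∨ g 1 1 = 1 ∨ g 1 1 = -1) : Good g := by
  have hdet := det_entries g
  rw [ha, zero_mul, zero_sub] at hdet
  rcases hc with hc | hc <;> rcases ht with ht | ht | ht
  · -- c = 1, t = 0 : S
    have hb : g 0 1 = -1 := by rw [hc] at hdet; linarith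
    refine good_of_eq (Or.inr (Or.inr (Or.inl ?_)))
    apply sl2_ext <;> simp [S_00, S_01, S_10, S_11, ha, hb, hc, ht]
  · -- c = 1, t = 1 : S T
    have hb : g 0 1 = -1 := by rw [hc] at hdet; linarith
    refine good_of_eq (Or.inr (Or.inr (Or.inr (Or.inr (Or.inl ?_)))))
    apply sl2_ext <;>
      simp [mul_00, mul_01, mul_10, mul_11, S_00, S_01, S_10, S_11, T_00, T_01, T_10, T_11,
        ha, hb, hc, ht]
  · -- c = 1, t = -1 : conjugate by S to (S T)^2
    have hb : g 0 1 = -1 := by rw [hc] at hdet; linarith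
    refine ⟨S, Or.inr (Or.inr (Or.inr (Or.inr (Or.inr (Or.inr (Or.inl ?_))))))⟩
    apply conj_eq_of_mul_eq
    apply sl2_ext <;>
      simp [pow_two, mul_00, mul_01, mul_10, mul_11, S_00, S_01, S_10, S_11, T_00, T_01, T_10,
        T_11, ha, hb, hc, ht]
  · -- c = -1, t = 0 : -S
    have hb : g 0 1 = 1 := by rw [hc] at hdet; linarith
    refine good_of_eq (Or.inr (Or.inr (Or.inr (Or.inl ?_))))
    apply sl2_ext <;> simp [neg_entry, S_00, S_01, S_10, S_11, ha, hb, hc, ht]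
  · -- c = -1, t = 1 : conjugate by S to -(S T)^2
    have hb : g 0 1 = 1 := by rw [hc] at hdet; linarith
    refine ⟨S, Or.inr (Or.inr (Or.inr (Or.inr (Or.inr (Or.inr (Or.inr ?_))))))⟩
    apply conj_eq_of_mul_eq
    apply sl2_ext <;>
      simp [pow_two, neg_entry, mul_00, mul_01, mul_10, mul_11, S_00, S_01, S_10, S_11, T_00,
        T_01, T_10, T_11, ha, hb, hc, ht]
  · -- c = -1, t = -1 : -(S T)
    have hb : g 0 1 = 1 := by rw [hc] at hdet; linarith
    refine good_of_eq (Or.inr (Or.inr (Or.inr (Or.inr (Or.inr (Or.inl ?_))))))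
    apply sl2_ext <;>
      simp [neg_entry, mul_00, mul_01, mul_10, mul_11, S_00, S_01, S_10, S_11, T_00, T_01, T_10,
        T_11, ha, hb, hc, ht]

/-- Conjugation by `[[1, k], [0, 1]]`: same `c`, `a ↦ a + k c`. -/
lemma exists_conj_upper (g : SL(2, ℤ)) (k : ℤ) :
    ∃ u g' : SL(2, ℤ), u * g * u⁻¹ = g' ∧ g' 0 0 = g 0 0 + k * g 1 0 ∧ g' 1 0 = g 1 0 ∧
      g' 1 1 = g 1 1 - k * g 1 0 := by
  have hdet := det_entries g
  refine ⟨mk2 1 k 0 1 (by ring),
    mk2 (g 0 0 + k * g 1 0) (g 0 1 + k * (g 1 1 - g 0 0) - k ^ 2 * g 1 0) (g 1 0)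
      (g 1 1 - k * g 1 0) (by linear_combination hdet), ?_, rfl, rfl, rfl⟩
  apply conj_eq_of_mul_eq
  apply sl2_ext <;> simp [mul_00, mul_01, mul_10, mul_11] <;> ring

/-- Conjugation by `S`: `[[a, b], [c, d]] ↦ [[d, -c], [-b, a]]`. -/
lemma exists_conj_S (g : SL(2, ℤ)) :
    ∃ g' : SL(2, ℤ), S * g * S⁻¹ = g' ∧ g' 0 0 = g 1 1 ∧ g' 1 0 = - g 0 1 ∧ g' 1 1 = g 0 0 := by
  have hdet := det_entries g
  refine ⟨mk2 (g 1 1) (- g 1 0) (- g 0 1) (g 0 0) (by linear_combination hdet), ?_, rfl, rfl, rfl⟩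
  apply conj_eq_of_mul_eq
  apply sl2_ext <;> simp [mul_00, mul_01, mul_10, mul_11, S_00, S_01, S_10, S_11]

lemma good_of_trace_le (n : ℕ) : ∀ g : SL(2, ℤ),
    |(g : Matrix (Fin 2) (Fin 2) ℤ).trace| ≤ 1 → (g 1 0).natAbs = n → Good g := by
  induction n using Nat.strong_induction_on with
  | _ n ih =>
    intro g ht hn
    rw [trace_entries] at ht
    have hdet := det_entries g
    -- `c ≠ 0`
    have hc : g 1 0 ≠ 0 := by
      intro h0
      rw [h0, mul_zero, sub_zero] at hdet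
      rcases Int.eq_one_or_neg_one_of_mul_eq_one' hdet with ⟨h0', h1⟩ | ⟨h0', h1⟩
      · rw [h0', h1] at ht; norm_num at ht
      · rw [h0', h1] at ht; norm_num at ht
    obtain ⟨k, hk⟩ := exists_balanced (g 0 0) (g 1 0) hc
    obtain ⟨u, g', hug, h00, h10, h11⟩ := exists_conj_upper g k
    refine Good.of_conj u ?_
    rw [hug]
    have ht' : |g' 0 0 + g' 1 1| ≤ 1 := by rw [h00, h11]; simpa using ht
    have hdet' := det_entries g'
    rw [← h00, ← h10] at hk
    by_cases hb : |g' 0 1| < |g' 1 0|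
    · -- conjugate by `S`
      obtain ⟨g'', hSg, k00, k10, k11⟩ := exists_conj_S g'
      refine Good.of_conj S ?_
      rw [hSg]
      refine ih (g'' 1 0).natAbs ?_ g'' ?_ rfl
      · rw [← hn, k10, Int.natAbs_neg, ← h10]
        rw [Int.abs_eq_natAbs, Int.abs_eq_natAbs] at hb
        exact_mod_cast hb
      · rw [trace_entries, k00, k11, add_comm]; exact ht'
    · -- reduced
      push Not at hb
      have habs : |g' 0 1| * |g' 1 0| = g' 0 0 * g' 1 1 - 1 ∨
          |g' 0 1| * |g' 1 0| = -(g' 0 0 * g' 1 1 - 1) := by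
        rw [← abs_mul]
        have : g' 0 1 * g' 1 0 = g' 0 0 * g' 1 1 - 1 := by linarith
        rw [this]
        rcases abs_choice (g' 0 0 * g' 1 1 - 1) with h | h
        · exact Or.inl h
        · exact Or.inr h
      have hcpos : 0 < |g' 1 0| := abs_pos.2 (by rw [h10]; exact hc)
      have hc1 : |g' 1 0| = 1 := by
        have hsq : |g' 1 0| * |g' 1 0| ≤ |g' 0 1| * |g' 1 0| :=
          mul_le_mul_of_nonneg_right hb (abs_nonneg _)
        have ha2 : g' 0 0 * g' 0 0 = |g' 0 0| * |g' 0 0| := (abs_mul_abs_self _).symm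
        have habs_t := abs_le.1 ht'
        have ha0 := abs_nonneg (g' 0 0)
        -- a d - 1 = a (t - a) - 1
        by_contra hne
        have hc2 : 2 ≤ |g' 1 0| := by omega
        rcases habs with h | h
        · -- a d - 1 ≥ 0 impossible-ish: a d = a t - a² ≤ |a| - a²
          have : g' 0 0 * g' 1 1 ≤ |g' 0 0| - |g' 0 0| * |g' 0 0| := by
            have e : g' 0 0 * g' 1 1 = g' 0 0 * (g' 0 0 + g' 1 1) - g' 0 0 * g' 0 0 := by ring
            rw [e, ha2]
            have : g' 0 0 * (g' 0 0 + g' 1 1) ≤ |g' 0 0| := by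
              calc g' 0 0 * (g' 0 0 + g' 1 1) ≤ |g' 0 0 * (g' 0 0 + g' 1 1)| := le_abs_self _
                _ = |g' 0 0| * |g' 0 0 + g' 1 1| := abs_mul _ _
                _ ≤ |g' 0 0| * 1 := mul_le_mul_of_nonneg_left ht' ha0
                _ = |g' 0 0| := mul_one _
            linarith
          nlinarith
        · have : -(g' 0 0 * g' 1 1) ≤ |g' 0 0| + |g' 0 0| * |g' 0 0| := by
            have e : -(g' 0 0 * g' 1 1) = -(g' 0 0 * (g' 0 0 + g' 1 1)) + g' 0 0 * g' 0 0 := by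
              ring
            rw [e, ha2]
            have : -(g' 0 0 * (g' 0 0 + g' 1 1)) ≤ |g' 0 0| := by
              calc -(g' 0 0 * (g' 0 0 + g' 1 1)) ≤ |g' 0 0 * (g' 0 0 + g' 1 1)| := neg_le_abs _
                _ = |g' 0 0| * |g' 0 0 + g' 1 1| := abs_mul _ _
                _ ≤ |g' 0 0| * 1 := mul_le_mul_of_nonneg_left ht' ha0
                _ = |g' 0 0| := mul_one _
            linarith
          nlinarith
      have ha0 : g' 0 0 = 0 := by
        rw [hc1] at hk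
        have := abs_nonneg (g' 0 0)
        have : |g' 0 0| = 0 := by omega
        exact abs_eq_zero.1 this
      refine good_reduced g' ha0 ?_ ?_
      · rcases abs_choice (g' 1 0) with h | h
        · left; rw [← h]; exact hc1
        · right; rw [h] at hc1; linarith
      · rw [ha0, zero_add] at ht'
        have := abs_le.1 ht'
        omega

/-- **TORS.**  Every element of finite order of `SL(2, ℤ)` is conjugate to one of
`± 1, ± S, ± S T, ± (S T)²`. -/
theorem torsion_class_h768 (g : SL(2, ℤ)) (hg : IsOfFinOrder g) :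
    ∃ h : SL(2, ℤ), h * g * h⁻¹ = 1 ∨ h * g * h⁻¹ = -1 ∨ h * g * h⁻¹ = S ∨ h * g * h⁻¹ = -S ∨
      h * g * h⁻¹ = S * T ∨ h * g * h⁻¹ = -(S * T) ∨ h * g * h⁻¹ = (S * T) ^ 2 ∨
      h * g * h⁻¹ = -(S * T) ^ 2 := by
  rcases trace_of_isOfFinOrder g hg with h | h | h
  · exact good_of_eq (Or.inl h)
  · exact good_of_eq (Or.inr (Or.inl h))
  · exact good_of_trace_le _ g h rfl

/-- **TORS**, exact shape of `Spec/PD.lean`. -/
theorem torsionClass : Fermat.Agent.S41.Spec.TorsionClassStatement :=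
  fun g hg => torsion_class_h768 g hg

end Fermat.Agent.S41.H768
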